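import Mathlib
import Fermat.Prelude.Def_AlgebraicCurve_IsCurveOver

/-!
# S27 brick (AD), part 1: the Prelude hypotheses give a finite extension of `K(x)`

For a field extension `F/K` in characteristic zero which is essentially of finite type (i.e.
finitely generated as a field extension) and whose module of Kähler differentials is free of
rank one (part of `AlgebraicCurve.IsCurveOver K F`), there is `x : F` transcendental over `K`
with `F` finite over `K(x)`.

The proof: a finite separating transcendence basis `s` exists (Mathlib); `F` is formally étale
over `E = K(s)`, so `Ω[F⁄K] = F ⊗[E] Ω[E⁄K]`, and `Ω[E⁄K]` is the localisation of the free module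
`Ω[K[s]⁄K]` of rank `#s`.  Hence `#s = 1`.
-/

set_option autoImplicit false

namespace Fermat.Agent.S27P.Adapter

open AlgebraicCurve IntermediateField KaehlerDifferential TensorProduct

/-- The Kähler differentials of a purely transcendental extension `K(x_i : i ∈ ι)/K`, `ι` finite,
form a free module of rank `#ι`. -/
theorem free_and_finrank_kaehler_adjoin {K F : Type*} [Field K] [Field F] [Algebra K F]
    {ι : Type*} [Finite ι] {x : ι → F} (hx : AlgebraicIndependent K x) :
    Module.Free (adjoin K (Set.range x)) Ω[adjoin K (Set.range x)⁄K] ∧
      Module.finrank (adjoin K (Set.range x)) Ω[adjoin K (Set.range x)⁄K] = Nat.card ι := by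
  classical
  let S := MvPolynomial ι K
  let T := FractionRing S
  let E := adjoin K (Set.range x)
  let e : T ≃ₐ[K] E := hx.aevalEquivField
  let _ : Algebra S E := ((e : T →+* E).comp (algebraMap S T)).toAlgebra
  have : IsScalarTower K S E := IsScalarTower.of_algebraMap_eq (fun c => by
    show algebraMap K E c = e (algebraMap S T (algebraMap K S c))
    rw [← IsScalarTower.algebraMap_apply K S T, e.commutes])
  let e' : T ≃ₐ[S] E := AlgEquiv.ofRingEquiv (f := e.toRingEquiv) (fun a => rfl)
  have : IsLocalization (nonZeroDivisors S) E :=
    IsLocalization.isLocalization_of_algEquiv _ e'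
  have : IsLocalizedModule (nonZeroDivisors S) (KaehlerDifferential.map K K S E) :=
    KaehlerDifferential.isLocalizedModule_map K S E (nonZeroDivisors S)
  let b := (KaehlerDifferential.mvPolynomialBasis K ι).ofIsLocalizedModule E
    (nonZeroDivisors S) (KaehlerDifferential.map K K S E)
  exact ⟨Module.Free.of_basis b, Module.finrank_eq_nat_card_basis b⟩

/-- If the finitely generated field extension `F/K` is separable algebraic over `K(s)` for a
finite algebraically independent set `s`, then `Ω[F⁄K]` has rank `#s` over `F`. -/
theorem finrank_kaehler_eq_card {K F : Type*} [Field K] [Field F] [Algebra K F]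
    [Algebra.EssFiniteType K F] (s : Finset F)
    (hs : AlgebraicIndependent K ((↑) : s → F))
    [Algebra.IsSeparable (adjoin K (s : Set F)) F] :
    Module.finrank F Ω[F⁄K] = s.card := by
  classical
  have hrange : Set.range ((↑) : s → F) = (s : Set F) := by simp
  obtain ⟨hfree, hrk⟩ := free_and_finrank_kaehler_adjoin hs
  rw [hrange] at hfree hrk
  have : Algebra.EssFiniteType (adjoin K (s : Set F)) F :=
    Algebra.EssFiniteType.of_comp K (adjoin K (s : Set F)) F
  have : Algebra.FormallyEtale (adjoin K (s : Set F)) F :=
    Algebra.FormallyEtale.of_isSeparable (adjoin K (s : Set F)) F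
  rw [← (KaehlerDifferential.tensorKaehlerEquivOfFormallyEtale K (adjoin K (s : Set F))
    F).finrank_eq, Module.finrank_baseChange, hrk]
  simp

/-- **(AD), field-theoretic core.**  Under the hypotheses of the frozen statement S27 (only
`CharZero K`, essential finiteness and the rank-one Kähler differentials are used), `F` is a
finite extension of a rational function field `K(x)`. -/
theorem exists_transcendental_finiteDimensional (K F : Type*) [Field K] [Field F] [Algebra K F]
    [CharZero K] [IsCurveOver K F] [Algebra.EssFiniteType K F] :
    ∃ x : F, Transcendental K x ∧ FiniteDimensional K⟮x⟯ F := by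
  classical
  obtain ⟨s, hs, hsep⟩ := exists_isTranscendenceBasis_and_isSeparable_of_perfectField K F
  have hcard : s.card = 1 := by
    rw [← finrank_kaehler_eq_card s hs.1]
    exact IsCurveOver.finrank_kaehler
  obtain ⟨x, rfl⟩ := Finset.card_eq_one.mp hcard
  have hE : adjoin K ((({x} : Finset F) : Set F)) = K⟮x⟯ := by simp
  rw [hE] at hsep
  refine ⟨x, ?_, ?_⟩
  · have h := hs.1.transcendental ⟨x, Finset.mem_singleton_self x⟩
    exact h
  · have : Algebra.EssFiniteType K⟮x⟯ F := Algebra.EssFiniteType.of_comp K K⟮x⟯ F
    exact Algebra.finite_of_essFiniteType_of_isAlgebraic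

end Fermat.Agent.S27P.Adapter
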